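import Fermat.Agent.LandauWirsing.Progressions
import Mathlib.Analysis.PSeries
import Mathlib.Analysis.SpecialFunctions.Pow.Asymptotics
import Mathlib.Data.Nat.Factorization.Basic
import Mathlib.NumberTheory.ArithmeticFunction.VonMangoldt

/-!
# Multiplicative functions with a mean over the primes

For `0 ≤ f ≤ 1` multiplicative the sums of `f(n) log n` and `f(n) log n / n` are, up to `O(N)` and
`O(∑ f(n) / n)`, the convolutions of `f` with `f(p) log p` on the primes.
-/

set_option autoImplicit false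

noncomputable section

namespace FA.LandauWirsing

open Finset Filter
open scoped Topology ArithmeticFunction.vonMangoldt

/-- Multiplicative, with values in `[0, 1]`. -/
structure UnitMult (f : ℕ → ℝ) : Prop where
  map_one : f 1 = 1
  map_mul : ∀ a b : ℕ, a.Coprime b → f (a * b) = f a * f b
  nonneg : ∀ n, 0 ≤ f n
  le_one : ∀ n, f n ≤ 1

/-- `∑_{n ≤ N} f n`. -/
def count (f : ℕ → ℝ) (N : ℕ) : ℝ := ∑ n ∈ Icc 1 N, f n

/-- `∑_{n ≤ N} f n / n`. -/
def logMean (f : ℕ → ℝ) (N : ℕ) : ℝ := ∑ n ∈ Icc 1 N, f n / n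

theorem sum_divisors_swap (N : ℕ) (F : ℕ → ℕ → ℝ) :
    ∑ n ∈ Icc 1 N, ∑ d ∈ n.divisors, F d (n / d) =
      ∑ d ∈ Icc 1 N, ∑ m ∈ Icc 1 (N / d), F d m := by
  rw [sum_sigma', sum_sigma']
  refine sum_nbij' (fun x => ⟨x.2, x.1 / x.2⟩) (fun x => ⟨x.1 * x.2, x.1⟩) ?_ ?_ ?_ ?_ ?_
  · rintro ⟨n, d⟩ hx
    simp only [mem_sigma, mem_Icc, Nat.mem_divisors] at hx ⊢
    obtain ⟨⟨h1, h2⟩, hd, -⟩ := hx
    have hd0 := Nat.pos_of_dvd_of_pos hd h1
    exact ⟨⟨hd0, (Nat.le_of_dvd h1 hd).trans h2⟩, Nat.div_pos (Nat.le_of_dvd h1 hd) hd0,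
      Nat.div_le_div_right h2⟩
  · rintro ⟨d, m⟩ hx
    simp only [mem_sigma, mem_Icc, Nat.mem_divisors] at hx ⊢
    obtain ⟨⟨h1, h2⟩, hm1, hm2⟩ := hx
    have h3 : 0 < d * m := Nat.mul_pos h1 hm1
    exact ⟨⟨h3, ((Nat.mul_le_mul_left d hm2).trans (Nat.mul_div_le N d))⟩, dvd_mul_right d m,
      h3.ne'⟩
  · rintro ⟨n, d⟩ hx
    simp only [mem_sigma, mem_Icc, Nat.mem_divisors] at hx
    simp [Nat.mul_div_cancel' hx.2.1]
  · rintro ⟨d, m⟩ hx
    simp only [mem_sigma, mem_Icc] at hx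
    simp [Nat.mul_div_cancel_left m hx.1.1]
  · rintro ⟨n, d⟩ _
    rfl

theorem UnitMult.logMean_nonneg {f : ℕ → ℝ} (hf : UnitMult f) (N : ℕ) : 0 ≤ logMean f N :=
  sum_nonneg fun n _ => div_nonneg (hf.nonneg n) (Nat.cast_nonneg n)

theorem UnitMult.one_le_logMean {f : ℕ → ℝ} (hf : UnitMult f) {N : ℕ} (hN : 1 ≤ N) :
    1 ≤ logMean f N := by
  have h := single_le_sum (f := fun n : ℕ => f n / (n : ℝ))
    (fun n _ => div_nonneg (hf.nonneg n) (Nat.cast_nonneg n)) (mem_Icc.2 ⟨le_rfl, hN⟩)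
  simpa [logMean, hf.map_one] using h

theorem logMean_mono {f : ℕ → ℝ} (hf : UnitMult f) {M N : ℕ} (h : M ≤ N) :
    logMean f M ≤ logMean f N :=
  sum_le_sum_of_subset_of_nonneg (Icc_subset_Icc_right h)
    fun n _ _ => div_nonneg (hf.nonneg n) (Nat.cast_nonneg n)

/-- `∑ f(m') / m` over `m = p^j m' ≤ X` with `j ≥ i`. -/
theorem sum_dvd_le {f : ℕ → ℝ} (hf : UnitMult f) {p : ℕ} (hp : p.Prime) (i X : ℕ) :
    ∑ m ∈ (Icc 1 X).filter (p ^ i ∣ ·), f (m / p ^ m.factorization p) / m ≤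
      2 / (p : ℝ) ^ i * logMean f X := by
  have hp0 : (0 : ℝ) < p := Nat.cast_pos.2 hp.pos
  have e : ∀ m ∈ (Icc 1 X).filter (p ^ i ∣ ·), f (m / p ^ m.factorization p) / m =
      ((p : ℝ) ^ m.factorization p)⁻¹ *
        (f (m / p ^ m.factorization p) / ((m / p ^ m.factorization p : ℕ) : ℝ)) := by
    intro m hm
    rw [mem_filter, mem_Icc] at hm
    conv_lhs =>
      arg 2
      rw [← Nat.ordProj_mul_ordCompl_eq_self m p]
    rw [Nat.cast_mul, Nat.cast_pow]
    field_simp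
  rw [sum_congr rfl e, ← sum_image (f := fun y : ℕ × ℕ => ((p : ℝ) ^ y.1)⁻¹ * (f y.2 / y.2))
    (g := fun m : ℕ => (m.factorization p, m / p ^ m.factorization p))]
  · refine (sum_le_sum_of_subset_of_nonneg (t := Icc i X ×ˢ Icc 1 X) (fun y hy => ?_)
      fun y _ _ => mul_nonneg (by positivity) (div_nonneg (hf.nonneg _)
        (Nat.cast_nonneg _))).trans ?_
    · obtain ⟨m, hm, rfl⟩ := mem_image.1 hy
      rw [mem_filter, mem_Icc] at hm
      simp only [mem_product, mem_Icc]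
      refine ⟨⟨(hp.pow_dvd_iff_le_factorization (by omega)).1 hm.2, ?_⟩,
        Nat.ordCompl_pos p (by omega), (Nat.div_le_self _ _).trans hm.1.2⟩
      exact (Nat.factorization_lt p (show m ≠ 0 by omega)).le.trans hm.1.2
    rw [sum_product]
    simp only
    rw [← sum_mul_sum, ← logMean]
    refine mul_le_mul_of_nonneg_right ?_ (hf.logMean_nonneg X)
    calc ∑ j ∈ Icc i X, ((p : ℝ) ^ j)⁻¹ ≤ ∑ j ∈ Icc i X, ((p : ℝ) ^ i)⁻¹ * (1 / 2) ^ (j - i) := by
          refine sum_le_sum fun j hj => ?_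
          obtain ⟨l, rfl⟩ := Nat.exists_eq_add_of_le (mem_Icc.1 hj).1
          rw [pow_add, mul_inv, Nat.add_sub_cancel_left, one_div, inv_pow]
          exact mul_le_mul_of_nonneg_left (inv_anti₀ (by positivity)
            (pow_le_pow_left₀ two_pos.le (Nat.ofNat_le_cast.2 hp.two_le) l)) (by positivity)
      _ ≤ ((p : ℝ) ^ i)⁻¹ * 2 := by
          rw [← mul_sum]
          refine mul_le_mul_of_nonneg_left ?_ (by positivity)
          rw [← Ico_succ_right_eq_Icc, sum_Ico_eq_sum_range]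
          simp only [Nat.add_sub_cancel_left]
          exact sum_geometric_two_le _
      _ = 2 / (p : ℝ) ^ i := by ring
  · intro a ha b hb h
    simp only [Prod.mk.injEq] at h
    exact ((Nat.ordProj_mul_ordCompl_eq_self a p).symm.trans (by rw [h.2, h.1])).trans
      (Nat.ordProj_mul_ordCompl_eq_self b p)

theorem UnitMult.le_ordCompl {f : ℕ → ℝ} (hf : UnitMult f) {p : ℕ} (hp : p.Prime) (k : ℕ)
    {m : ℕ} (hm : m ≠ 0) : f (p ^ k * m) ≤ f (m / p ^ m.factorization p) := by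
  have hco : ∀ j, (p ^ j).Coprime (m / p ^ m.factorization p) := fun j =>
    (Nat.coprime_ordCompl hp hm).pow_left j
  nth_rewrite 1 [← Nat.ordProj_mul_ordCompl_eq_self m p]
  rw [← mul_assoc, ← pow_add, hf.map_mul _ _ (hco _)]
  exact mul_le_of_le_one_left (hf.nonneg _) (hf.le_one _)

/-- The constant `∑ Λ(d) / d` over the `d` that are not prime. -/
theorem exists_sum_not_prime_le : ∃ K : ℝ, ∀ N : ℕ,
    ∑ d ∈ (Icc 1 N).filter (fun d => ¬ d.Prime), Λ d / d ≤ K ∧
      ∑ p ∈ primesLE N, Real.log p / (p : ℝ) ^ 2 ≤ K := by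
  have hsum : Summable fun q : ℕ => Real.log q / (q : ℝ) ^ 2 := by
    refine Summable.of_nonneg_of_le (fun q => div_nonneg (Real.log_natCast_nonneg q)
      (by positivity)) (fun q => ?_)
      ((Real.summable_one_div_nat_rpow.2 (show (1 : ℝ) < 3 / 2 by norm_num)).mul_left 2)
    rcases Nat.eq_zero_or_pos q with rfl | hq
    · simp
    have h0 : (0 : ℝ) < q := Nat.cast_pos.2 hq
    have h1 := Real.log_le_rpow_div h0.le (show (0 : ℝ) < 1 / 2 by norm_num)
    rw [div_le_iff₀ (pow_pos h0 2)]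
    refine h1.trans (le_of_eq ?_)
    rw [← Real.rpow_natCast (q : ℝ) 2, mul_assoc, div_mul_eq_mul_div, one_mul,
      ← Real.rpow_sub h0]
    norm_num
    ring
  obtain ⟨S, hS⟩ : ∃ S, S = ∑' q : ℕ, Real.log q / (q : ℝ) ^ 2 := ⟨_, rfl⟩
  have hS0 : 0 ≤ S :=
    hS ▸ tsum_nonneg fun q => div_nonneg (Real.log_natCast_nonneg q) (by positivity)
  refine ⟨2 * S, fun N => ⟨?_, ?_⟩⟩
  · -- through `q = minFac d` and `d = q ^ k`, `k ≥ 2`
    have h1 : ∀ d ∈ ((Icc 1 N).filter (fun d => ¬ d.Prime)).filter IsPrimePow,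
        (d.minFac, d.factorization d.minFac) ∈ primesLE N ×ˢ Icc 2 N ∧
          Λ d / d = Real.log d.minFac / (d.minFac : ℝ) ^ d.factorization d.minFac ∧
            d.minFac ^ d.factorization d.minFac = d := by
      intro d hd
      simp only [mem_filter, mem_Icc] at hd
      obtain ⟨⟨⟨hd1, hdN⟩, hnp⟩, hpp⟩ := hd
      obtain ⟨q, k, hq, hk, rfl⟩ := hpp
      rw [← Nat.prime_iff] at hq
      have e1 : (q ^ k).minFac = q := hq.pow_minFac hk.ne'
      have e2 : (q ^ k).factorization q = k := by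
        rw [hq.factorization_pow, Finsupp.single_eq_same]
      rw [e1, e2]
      refine ⟨?_, ?_, rfl⟩
      · rw [mem_product, mem_primesLE, mem_Icc]
        refine ⟨⟨hq, (Nat.le_self_pow hk.ne' q).trans hdN⟩, ?_,
          (Nat.lt_pow_self hq.one_lt).le.trans hdN⟩
        rcases Nat.lt_or_ge k 2 with h | h
        · obtain rfl : k = 1 := by omega
          rw [pow_one] at hnp
          exact absurd hq hnp
        · exact h
      · rw [ArithmeticFunction.vonMangoldt_apply_pow hk.ne',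
          ArithmeticFunction.vonMangoldt_apply_prime hq, Nat.cast_pow]
    rw [← sum_filter_of_ne (p := IsPrimePow) fun d _ hd =>
      ArithmeticFunction.vonMangoldt_ne_zero_iff.1 (left_ne_zero_of_mul
        (show Λ d * (d : ℝ)⁻¹ ≠ 0 by rwa [← div_eq_mul_inv]))]
    rw [sum_congr rfl fun d hd => (h1 d hd).2.1,
      ← sum_image (f := fun y : ℕ × ℕ => Real.log y.1 / (y.1 : ℝ) ^ y.2)
        (g := fun d : ℕ => (d.minFac, d.factorization d.minFac))]
    · refine (sum_le_sum_of_subset_of_nonneg (t := primesLE N ×ˢ Icc 2 N) (fun y hy => ?_)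
        fun y _ _ => div_nonneg (Real.log_natCast_nonneg _) (by positivity)).trans ?_
      · obtain ⟨d, hd, rfl⟩ := mem_image.1 hy
        exact (h1 d hd).1
      rw [sum_product]
      refine (sum_le_sum (g := fun q : ℕ => 2 * (Real.log q / (q : ℝ) ^ 2)) fun q hq => ?_).trans ?_
      · have h0 : (2 : ℝ) ≤ q := Nat.ofNat_le_cast.2 (mem_primesLE.1 hq).1.two_le
        calc ∑ j ∈ Icc 2 N, Real.log q / (q : ℝ) ^ j
            ≤ ∑ j ∈ Icc 2 N, Real.log q / (q : ℝ) ^ 2 * (1 / 2 : ℝ) ^ (j - 2) := by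
              refine sum_le_sum fun j hj => ?_
              obtain ⟨l, rfl⟩ := Nat.exists_eq_add_of_le (mem_Icc.1 hj).1
              rw [Nat.add_sub_cancel_left, pow_add, ← div_div, one_div, inv_pow, ← div_eq_mul_inv]
              exact div_le_div_of_nonneg_left (div_nonneg (Real.log_natCast_nonneg q)
                (by positivity)) (by positivity) (pow_le_pow_left₀ (by norm_num) h0 l)
          _ ≤ Real.log q / (q : ℝ) ^ 2 * 2 := by
              rw [← mul_sum]
              refine mul_le_mul_of_nonneg_left ?_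
                (div_nonneg (Real.log_natCast_nonneg q) (by positivity))
              rw [← Ico_succ_right_eq_Icc, sum_Ico_eq_sum_range]
              simp only [Nat.add_sub_cancel_left]
              exact sum_geometric_two_le _
          _ = 2 * (Real.log q / (q : ℝ) ^ 2) := mul_comm _ _
      · rw [← mul_sum]
        exact mul_le_mul_of_nonneg_left (hS ▸ hsum.sum_le_tsum _
          fun i _ => div_nonneg (Real.log_natCast_nonneg i) (by positivity)) two_pos.le
    · intro a ha b hb h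
      simp only [Prod.mk.injEq] at h
      rw [← (h1 a ha).2.2, ← (h1 b hb).2.2, h.2, h.1]
  · exact (hS ▸ hsum.sum_le_tsum _
      fun i _ => div_nonneg (Real.log_natCast_nonneg i) (by positivity)).trans (by linarith)

theorem UnitMult.abs_map_mul_sub_le {f : ℕ → ℝ} (hf : UnitMult f) {p : ℕ} (hp : p.Prime) {m : ℕ}
    (hm : m ≠ 0) :
    |f (p * m) - f p * f m| ≤ if p ∣ m then f (m / p ^ m.factorization p) else 0 := by
  split_ifs with h
  · have h1 := hf.le_ordCompl hp 1 hm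
    have h2 := hf.le_ordCompl hp 0 hm
    rw [pow_one] at h1
    rw [pow_zero, one_mul] at h2
    have h3 : f p * f m ≤ f m := mul_le_of_le_one_left (hf.nonneg m) (hf.le_one p)
    rw [abs_le]
    constructor <;> linarith [hf.nonneg (p * m), mul_nonneg (hf.nonneg p) (hf.nonneg m)]
  · rw [hf.map_mul p m ((Nat.Prime.coprime_iff_not_dvd hp).2 h), sub_self, abs_zero]

theorem sum_log_mul_eq (f w : ℕ → ℝ) (hw : ∀ a b, w (a * b) = w a * w b) (N : ℕ) :
    ∑ n ∈ Icc 1 N, f n * Real.log n * w n =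
      ∑ d ∈ Icc 1 N, Λ d * w d * ∑ m ∈ Icc 1 (N / d), f (d * m) * w m := by
  simp only [mul_sum]
  rw [← sum_divisors_swap N fun d m => Λ d * w d * (f (d * m) * w m)]
  refine sum_congr rfl fun n _ => ?_
  rw [← ArithmeticFunction.vonMangoldt_sum (n := n), mul_sum, sum_mul]
  refine sum_congr rfl fun d hd => ?_
  obtain ⟨m, rfl⟩ := (Nat.mem_divisors.1 hd).1
  rw [Nat.mul_div_cancel_left m (Nat.pos_of_mem_divisors hd), hw]
  ring

theorem sum_primes_swap (N : ℕ) (g f : ℕ → ℝ) :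
    ∑ p ∈ primesLE N, g p * ∑ m ∈ Icc 1 (N / p), f m =
      ∑ m ∈ Icc 1 N, f m * ∑ p ∈ primesLE (N / m), g p := by
  simp only [mul_sum]
  refine (sum_comm' (t' := Icc 1 N) (s' := fun m => primesLE (N / m)) ?_).trans
    (sum_congr rfl fun m _ => sum_congr rfl fun p _ => mul_comm _ _)
  intro p m
  simp only [mem_primesLE, mem_Icc]
  constructor
  · rintro ⟨⟨hp, -⟩, h1, h2⟩
    rw [Nat.le_div_iff_mul_le hp.pos] at h2
    exact ⟨⟨hp, (Nat.le_div_iff_mul_le h1).2 (by rwa [mul_comm])⟩, h1,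
      (Nat.le_mul_of_pos_right m hp.pos).trans h2⟩
  · rintro ⟨⟨hp, hpm⟩, h1, -⟩
    rw [Nat.le_div_iff_mul_le h1] at hpm
    exact ⟨⟨hp, (Nat.le_mul_of_pos_right p h1).trans hpm⟩, h1,
      (Nat.le_div_iff_mul_le hp.pos).2 (by rwa [mul_comm])⟩

theorem exists_count_log {f : ℕ → ℝ} (hf : UnitMult f) : ∃ K : ℝ, ∀ N : ℕ,
    |∑ n ∈ Icc 1 N, f n * Real.log n -
      ∑ m ∈ Icc 1 N, f m * ∑ p ∈ primesLE (N / m), f p * Real.log p| ≤ K * N := by
  obtain ⟨K, hK⟩ := exists_sum_not_prime_le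
  refine ⟨2 * K, fun N => ?_⟩
  have h := sum_log_mul_eq f (fun _ => 1) (fun _ _ => (one_mul 1).symm) N
  simp only [mul_one] at h
  rw [h, ← sum_primes_swap N (fun p => f p * Real.log p) f,
    ← sum_filter_add_sum_filter_not (Icc 1 N) Nat.Prime, ← primesLE]
  have hA : |∑ d ∈ (Icc 1 N).filter (fun d => ¬ d.Prime), Λ d * ∑ m ∈ Icc 1 (N / d), f (d * m)| ≤
      K * N := by
    rw [abs_of_nonneg (sum_nonneg fun d _ => mul_nonneg ArithmeticFunction.vonMangoldt_nonneg
      (sum_nonneg fun m _ => hf.nonneg _))]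
    refine le_trans ?_ (mul_le_mul_of_nonneg_right (hK N).1 (Nat.cast_nonneg N))
    rw [sum_mul]
    refine sum_le_sum fun d _ => ?_
    rw [div_mul_eq_mul_div, mul_div_assoc]
    refine mul_le_mul_of_nonneg_left ((sum_le_card_nsmul _ _ 1 fun m _ => hf.le_one _).trans ?_)
      ArithmeticFunction.vonMangoldt_nonneg
    rw [Nat.card_Icc, nsmul_eq_mul, mul_one, Nat.add_sub_cancel]
    exact Nat.cast_div_le
  have hB : |∑ d ∈ primesLE N, Λ d * ∑ m ∈ Icc 1 (N / d), f (d * m) -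
      ∑ p ∈ primesLE N, f p * Real.log p * ∑ m ∈ Icc 1 (N / p), f m| ≤ K * N := by
    rw [← sum_sub_distrib]
    refine (abs_sum_le_sum_abs _ _).trans
      (le_trans ?_ (mul_le_mul_of_nonneg_right (hK N).2 (Nat.cast_nonneg N)))
    rw [sum_mul]
    refine sum_le_sum fun p hp => ?_
    obtain ⟨hp, -⟩ := mem_primesLE.1 hp
    rw [ArithmeticFunction.vonMangoldt_apply_prime hp, mul_comm (f p), mul_assoc, ← mul_sub,
      abs_mul, abs_of_nonneg (Real.log_natCast_nonneg p), div_mul_eq_mul_div, mul_div_assoc]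
    refine mul_le_mul_of_nonneg_left ?_ (Real.log_natCast_nonneg p)
    rw [mul_sum, ← sum_sub_distrib]
    refine (abs_sum_le_sum_abs _ _).trans ((sum_le_sum fun m hm => (hf.abs_map_mul_sub_le hp
      (show m ≠ 0 by have := (mem_Icc.1 hm).1; omega)).trans (show _ ≤ if p ∣ m then (1 : ℝ) else 0
        by split_ifs <;> [exact hf.le_one _; exact le_rfl])).trans ?_)
    rw [sum_boole]
    have e : ((Icc 1 (N / p)).filter (p ∣ ·)).card = N / p / p := by
      rw [show Icc 1 (N / p) = Ioc 0 (N / p) from rfl, Nat.Ioc_filter_dvd_card_eq_div]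
    rw [e, Nat.div_div_eq_div_mul, ← sq]
    refine Nat.cast_div_le.trans (le_of_eq ?_)
    push_cast
    rfl
  obtain ⟨a1, a2⟩ := abs_le.1 hA
  obtain ⟨b1, b2⟩ := abs_le.1 hB
  rw [abs_le]
  constructor <;> linarith

theorem exists_logMean_log {f : ℕ → ℝ} (hf : UnitMult f) : ∃ K : ℝ, ∀ N : ℕ,
    |∑ n ∈ Icc 1 N, f n * Real.log n / n -
      ∑ m ∈ Icc 1 N, f m / m * ∑ p ∈ primesLE (N / m), f p * (Real.log p / p)| ≤
        K * logMean f N := by
  obtain ⟨K, hK⟩ := exists_sum_not_prime_le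
  refine ⟨4 * K, fun N => ?_⟩
  have hL := hf.logMean_nonneg N
  have h := sum_log_mul_eq f (fun n => (n : ℝ)⁻¹) (fun a b => by push_cast; rw [mul_inv]) N
  rw [show ∑ n ∈ Icc 1 N, f n * Real.log n / n = ∑ n ∈ Icc 1 N, f n * Real.log n * (n : ℝ)⁻¹ from
    sum_congr rfl fun n _ => div_eq_mul_inv _ _, h,
    ← sum_primes_swap N (fun p => f p * (Real.log p / p)) fun m => f m / m,
    ← sum_filter_add_sum_filter_not (Icc 1 N) Nat.Prime, ← primesLE]
  have hA : |∑ d ∈ (Icc 1 N).filter (fun d => ¬ d.Prime),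
      Λ d * (d : ℝ)⁻¹ * ∑ m ∈ Icc 1 (N / d), f (d * m) * (m : ℝ)⁻¹| ≤ 2 * K * logMean f N := by
    rw [abs_of_nonneg (sum_nonneg fun d _ => mul_nonneg (mul_nonneg
      ArithmeticFunction.vonMangoldt_nonneg (by positivity)) (sum_nonneg fun m _ => mul_nonneg
        (hf.nonneg _) (by positivity)))]
    have h3 := mul_le_mul_of_nonneg_right (hK N).1 (show 0 ≤ 2 * logMean f N by positivity)
    refine le_trans ?_ (h3.trans (le_of_eq (by ring)))
    rw [sum_mul]
    refine sum_le_sum fun d hd => ?_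
    rw [← div_eq_mul_inv]
    rcases eq_or_ne (Λ d) 0 with h0 | h0
    · simp [h0]
    obtain ⟨q, k, hq, hk, rfl⟩ := ArithmeticFunction.vonMangoldt_ne_zero_iff.1 h0
    rw [← Nat.prime_iff] at hq
    refine mul_le_mul_of_nonneg_left ?_
      (div_nonneg ArithmeticFunction.vonMangoldt_nonneg (Nat.cast_nonneg _))
    have h4 := sum_dvd_le hf hq 0 N
    rw [pow_zero, pow_zero, div_one, filter_true_of_mem fun m _ => one_dvd m] at h4
    refine le_trans (le_trans (sum_le_sum fun m hm => ?_)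
      (sum_le_sum_of_subset_of_nonneg (Icc_subset_Icc_right (Nat.div_le_self N _))
        fun m _ _ => div_nonneg (hf.nonneg _) (Nat.cast_nonneg _))) h4
    rw [div_eq_mul_inv]
    exact mul_le_mul_of_nonneg_right (hf.le_ordCompl hq k (show m ≠ 0 by
      have := (mem_Icc.1 hm).1; omega)) (by positivity)
  have hB : |∑ d ∈ primesLE N, Λ d * (d : ℝ)⁻¹ * ∑ m ∈ Icc 1 (N / d), f (d * m) * (m : ℝ)⁻¹ -
      ∑ p ∈ primesLE N, f p * (Real.log p / p) * ∑ m ∈ Icc 1 (N / p), f m / m| ≤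
        2 * K * logMean f N := by
    rw [← sum_sub_distrib]
    refine (abs_sum_le_sum_abs _ _).trans ?_
    have h3 := mul_le_mul_of_nonneg_right (hK N).2 (show 0 ≤ 2 * logMean f N by positivity)
    refine le_trans ?_ (h3.trans (le_of_eq (by ring)))
    rw [sum_mul]
    refine sum_le_sum fun p hp => ?_
    obtain ⟨hp, -⟩ := mem_primesLE.1 hp
    rw [ArithmeticFunction.vonMangoldt_apply_prime hp, ← div_eq_mul_inv, mul_comm (f p),
      mul_assoc (Real.log p / p), ← mul_sub, abs_mul,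
      abs_of_nonneg (div_nonneg (Real.log_natCast_nonneg p) (Nat.cast_nonneg p)), sq, ← div_div,
      div_mul_eq_mul_div _ _ (2 * _), mul_div_assoc]
    refine mul_le_mul_of_nonneg_left ?_
      (div_nonneg (Real.log_natCast_nonneg p) (Nat.cast_nonneg p))
    rw [mul_sum, ← sum_sub_distrib]
    refine (abs_sum_le_sum_abs _ _).trans ((sum_le_sum (g := fun m =>
      if p ∣ m then f (m / p ^ m.factorization p) / m else 0) fun m hm => ?_).trans ?_)
    · rw [← div_eq_mul_inv, ← mul_div_assoc, ← sub_div, abs_div, Nat.abs_cast]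
      refine (div_le_div_of_nonneg_right (hf.abs_map_mul_sub_le hp
        (show m ≠ 0 by have := (mem_Icc.1 hm).1; omega)) (Nat.cast_nonneg m)).trans_eq ?_
      rw [ite_div, zero_div]
    · rw [← sum_filter]
      have h4 := sum_dvd_le hf hp 1 (N / p)
      simp only [pow_one] at h4
      refine h4.trans ?_
      rw [div_mul_eq_mul_div]
      exact div_le_div_of_nonneg_right
        (mul_le_mul_of_nonneg_left (logMean_mono hf (Nat.div_le_self N p)) two_pos.le)
        (Nat.cast_nonneg p)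
  obtain ⟨a1, a2⟩ := abs_le.1 hA
  obtain ⟨b1, b2⟩ := abs_le.1 hB
  rw [abs_le]
  constructor <;> linarith

end FA.LandauWirsing
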