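import Fermat.Agent.LandauWirsing.Main
import Fermat.Agent.Tau.ModSixNinetyOne
import Mathlib.NumberTheory.ArithmeticFunction.Misc
import Mathlib.FieldTheory.Finite.Basic

/-!
# Non-divisibility of `σ_k` and of `τ`

Rankin's theorem on `σ_k` modulo a prime and Ramanujan's claim on `τ` modulo `691`.
-/

set_option autoImplicit false

noncomputable section

namespace FA.LandauWirsing

open Finset Filter
open scoped Topology ArithmeticFunction.sigma

/-- The indicator of the `n` with all prime factors in `A`. -/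
def classInd {q : ℕ} (A : Finset (ZMod q)) (n : ℕ) : ℝ :=
  if n ≠ 0 ∧ ∀ p ∈ n.primeFactors, (p : ZMod q) ∈ A then 1 else 0

theorem unitMult_classInd {q : ℕ} (A : Finset (ZMod q)) : UnitMult (classInd A) where
  map_one := by simp [classInd]
  map_mul a b hab := by
    rw [classInd, classInd, classInd]
    rcases eq_or_ne a 0 with rfl | ha
    · simp
    rcases eq_or_ne b 0 with rfl | hb
    · simp
    simp only [Nat.mul_ne_zero_iff.2 ⟨ha, hb⟩, ha, hb, ne_eq, not_false_eq_true, true_and,
      Nat.primeFactors_mul ha hb, Finset.forall_mem_union]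
    by_cases h1 : ∀ p ∈ a.primeFactors, (p : ZMod q) ∈ A <;>
      by_cases h2 : ∀ p ∈ b.primeFactors, (p : ZMod q) ∈ A
    · rw [if_pos h1, if_pos h2, if_pos ⟨h1, h2⟩, one_mul]
    · rw [if_neg h2, if_neg fun h => h2 h.2, mul_zero]
    · rw [if_neg h1, if_neg fun h => h1 h.1, zero_mul]
    · rw [if_neg h1, if_neg fun h => h1 h.1, zero_mul]
  nonneg n := by rw [classInd]; split_ifs <;> norm_num
  le_one n := by rw [classInd]; split_ifs <;> norm_num

theorem classInd_prime {q : ℕ} (A : Finset (ZMod q)) {p : ℕ} (hp : p.Prime) :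
    classInd A p = if (p : ZMod q) ∈ A then 1 else 0 := by
  rw [classInd, hp.primeFactors]
  simp [hp.ne_zero]

variable {l : ℕ} [Fact l.Prime]

/-- The indicator of the `n` with `l ∤ σ_k n`. -/
def sigmaInd (l k n : ℕ) : ℝ := if l ∣ σ k n then 0 else 1

theorem unitMult_sigmaInd (k : ℕ) : UnitMult (sigmaInd l k) where
  map_one := by
    rw [sigmaInd, ArithmeticFunction.isMultiplicative_sigma.map_one, if_neg]
    exact fun h => (Fact.out (p := l.Prime)).one_lt.ne' (Nat.dvd_one.1 h)
  map_mul a b hab := by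
    rw [sigmaInd, sigmaInd, sigmaInd,
      ArithmeticFunction.isMultiplicative_sigma.map_mul_of_coprime hab]
    have := (Fact.out (p := l.Prime)).dvd_mul (m := σ k a) (n := σ k b)
    by_cases h1 : l ∣ σ k a <;> by_cases h2 : l ∣ σ k b <;> simp [h1, h2, this]
  nonneg n := by rw [sigmaInd]; split_ifs <;> norm_num
  le_one n := by rw [sigmaInd]; split_ifs <;> norm_num

/-- The classes of the primes `p` with `l ∤ σ_k p`. -/
def sigmaClasses (l k : ℕ) [Fact l.Prime] : Finset (ZMod l) :=
  univ.filter fun a => a ≠ 0 ∧ a ^ k ≠ -1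

theorem sigmaInd_prime (k : ℕ) {p : ℕ} (hp : p.Prime) (hpl : l < p) :
    sigmaInd l k p = if (p : ZMod l) ∈ sigmaClasses l k then 1 else 0 := by
  have h0 : (p : ZMod l) ≠ 0 := fun h => by
    rw [ZMod.natCast_eq_zero_iff, Nat.prime_dvd_prime_iff_eq (Fact.out (p := l.Prime)) hp] at h
    omega
  have hd : l ∣ σ k p ↔ (p : ZMod l) ^ k = -1 := by
    rw [ArithmeticFunction.sigma_apply, hp.divisors, Finset.sum_pair hp.ne_one.symm,
      ← ZMod.natCast_eq_zero_iff, Nat.cast_add, Nat.cast_pow, Nat.cast_pow, Nat.cast_one, one_pow,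
      add_comm, add_eq_zero_iff_eq_neg]
  rw [sigmaInd]
  simp only [sigmaClasses, mem_filter, mem_univ, true_and, ne_eq, h0, not_false_eq_true, hd,
    ite_not]

theorem card_sigmaClasses {k : ℕ} (hk : k ≠ 0) :
    ((sigmaClasses l k).card : ℝ) =
      ((l : ℝ) - 1) - ((univ.filter fun a : ZMod l => a ^ k = -1).card : ℝ) := by
  have h1 : (sigmaClasses l k).card + (univ.filter fun a : ZMod l => a ^ k = -1).card + 1 = l := by
    have e1 := card_filter_add_card_filter_not (s := (univ : Finset (ZMod l)).erase 0)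
      (p := fun a => a ^ k = -1)
    have e2 : ((univ : Finset (ZMod l)).erase 0).filter (fun a => a ^ k = -1) =
        univ.filter fun a : ZMod l => a ^ k = -1 := by
      ext a
      simp only [mem_filter, mem_erase, mem_univ, and_true, true_and, and_iff_right_iff_imp]
      rintro h rfl
      rw [zero_pow hk] at h
      exact one_ne_zero (neg_eq_zero.1 h.symm)
    have e3 : ((univ : Finset (ZMod l)).erase 0).filter (fun a => ¬a ^ k = -1) =
        sigmaClasses l k := by
      ext a
      simp [sigmaClasses]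
    rw [e2, e3, card_erase_of_mem (mem_univ _), card_univ, ZMod.card] at e1
    have := (Fact.out (p := l.Prime)).pos
    omega
  have h2 := congrArg (Nat.cast : ℕ → ℝ) h1
  push_cast at h2
  linarith

/-- **Rankin's theorem.** -/
theorem exists_sigma_asymptotic (hl : l ≠ 2) {k : ℕ} (hk : k ≠ 0) :
    ∃ C : ℝ, 0 < C ∧ Tendsto (fun N : ℕ => count (sigmaInd l k) N * Real.log N ^
      (((univ.filter fun a : ZMod l => a ^ k = -1).card : ℝ) / ((l : ℝ) - 1)) / N) atTop (𝓝 C) := by
  have hl3 : 2 < l := lt_of_le_of_ne (Fact.out (p := l.Prime)).two_le hl.symm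
  haveI : Fact (2 < l) := ⟨hl3⟩
  have hne : (sigmaClasses l k).Nonempty := ⟨1, by
    simp [sigmaClasses, Ne.symm ZMod.neg_one_ne_one]⟩
  have hu : ∀ a ∈ sigmaClasses l k, IsUnit a := fun a ha =>
    isUnit_iff_ne_zero.2 (mem_filter.1 ha).2.1
  obtain ⟨C, hC, hlim, -⟩ := exists_asymptotic_of_classes hu hne (unitMult_sigmaInd k) (l + 1)
    fun p hp hpl => sigmaInd_prime k hp hpl
  refine ⟨C, hC, ?_⟩
  have hl1 : (0 : ℝ) < (l : ℝ) - 1 := by
    have : (2 : ℝ) < l := by exact_mod_cast hl3
    linarith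
  have e : 1 - ((sigmaClasses l k).card : ℝ) / l.totient =
      ((univ.filter fun a : ZMod l => a ^ k = -1).card : ℝ) / ((l : ℝ) - 1) := by
    rw [card_sigmaClasses hk, Nat.totient_prime (Fact.out (p := l.Prime)),
      Nat.cast_sub (Fact.out (p := l.Prime)).one_le, Nat.cast_one]
    field_simp
    ring
  rwa [e] at hlim

theorem card_pow_eleven : (univ.filter fun a : ZMod 691 => a ^ 11 = -1).card = 1 := by
  haveI : Fact (Nat.Prime 691) := ⟨by norm_num⟩
  rw [card_eq_one]
  refine ⟨-1, ?_⟩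
  ext a
  simp only [mem_filter, mem_univ, true_and, mem_singleton]
  refine ⟨fun h => ?_, fun h => by rw [h]; exact (by decide : Odd 11).neg_one_pow⟩
  have ha : a ≠ 0 := fun h0 => by
    rw [h0, zero_pow (by norm_num)] at h
    exact one_ne_zero (neg_eq_zero.1 h.symm)
  have h1 : a ^ 690 = 1 := ZMod.pow_card_sub_one_eq_one ha
  calc a = (a ^ 690) ^ 4 * a := by rw [h1, one_pow, one_mul]
    _ = (a ^ 11) ^ 251 := by rw [← pow_mul, ← pow_mul, ← pow_succ]
    _ = -1 := by rw [h]; exact (by decide : Odd 251).neg_one_pow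

/-- **Ramanujan's claim**, with an unspecified constant. -/
theorem exists_tau_asymptotic :
    ∃ C : ℝ, 0 < C ∧ Tendsto (fun N : ℕ => (((Icc 1 N).filter fun n =>
      ¬ (691 : ℤ) ∣ PowerSeries.coeff n FA.Tau.deltaInt).card : ℝ) *
        Real.log N ^ ((690 : ℝ)⁻¹) / N) atTop (𝓝 C) := by
  haveI : Fact (Nat.Prime 691) := ⟨by norm_num⟩
  obtain ⟨C, hC, hlim⟩ := exists_sigma_asymptotic (l := 691) (by norm_num) (k := 11) (by norm_num)
  refine ⟨C, hC, hlim.congr fun N => ?_⟩
  rw [card_pow_eleven, count, card_filter, Nat.cast_sum]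
  congr 2
  · refine sum_congr rfl fun n _ => ?_
    have h : (691 : ℤ) ∣ PowerSeries.coeff n FA.Tau.deltaInt ↔ 691 ∣ σ 11 n := by
      rw [dvd_iff_dvd_of_dvd_sub (FA.Tau.dvd_coeff_deltaInt_sub_sigma n)]
      exact_mod_cast Iff.rfl
    rw [sigmaInd]
    by_cases h2 : 691 ∣ σ 11 n
    · simp [h2, h.2 h2]
    · simp [h2, mt h.1 h2]
  · norm_num

end FA.LandauWirsing
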