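import Fermat.Agent.LandauWirsing.Convolution
import Mathlib.Topology.Algebra.InfiniteSum.Real
import Mathlib.Analysis.SpecialFunctions.Exp

/-!
# The asymptotics of Landau and Wirsing

If `∑_{p ≤ N} f(p) log p ∼ τ N` and `∑_{p ≤ N} f(p) log p / p = τ log N + O(1)`, `τ > 0`, then
`∑_{n ≤ N} f(n) ∼ C N (log N)^(τ - 1)`.
-/

set_option autoImplicit false

noncomputable section

namespace FA.LandauWirsing

open Finset Filter
open scoped Topology

/-- The primes carry the mean `τ`. -/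
structure PrimeMean (f : ℕ → ℝ) (τ : ℝ) : Prop where
  pos : 0 < τ
  theta : Tendsto (fun N : ℕ => (∑ p ∈ primesLE N, f p * Real.log p) / N) atTop (𝓝 τ)
  mertens : ∃ C : ℝ, ∀ N : ℕ, 1 ≤ N →
    |∑ p ∈ primesLE N, f p * (Real.log p / p) - τ * Real.log N| ≤ C

variable {f : ℕ → ℝ} {τ : ℝ}

theorem UnitMult.count_log_bounds (hf : UnitMult f) {N : ℕ} (hN : 1 ≤ N) :
    0 ≤ count f N * Real.log N - ∑ n ∈ Icc 1 N, f n * Real.log n ∧
      count f N * Real.log N - ∑ n ∈ Icc 1 N, f n * Real.log n ≤ N := by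
  rw [count, sum_mul, ← sum_sub_distrib]
  have h1 : ∀ n ∈ Icc 1 N, 0 ≤ Real.log N - Real.log n := fun n hn => sub_nonneg.2
    (Real.log_le_log (Nat.cast_pos.2 (mem_Icc.1 hn).1) (Nat.cast_le.2 (mem_Icc.1 hn).2))
  refine ⟨sum_nonneg fun n hn => by
    rw [← mul_sub]; exact mul_nonneg (hf.nonneg n) (h1 n hn), ?_⟩
  refine (sum_le_sum (g := fun n : ℕ => Real.log N - Real.log n) fun n hn => by
    rw [← mul_sub]; exact mul_le_of_le_one_left (h1 n hn) (hf.le_one n)).trans ?_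
  rw [sum_sub_distrib, sum_const, Nat.card_Icc, Nat.add_sub_cancel, nsmul_eq_mul,
    ← Real.log_prod (fun n hn => Nat.cast_ne_zero.2 (by have := (mem_Icc.1 hn).1; omega)),
    ← Nat.cast_prod, ← Finset.Ico_add_one_right_eq_Icc, Finset.prod_Ico_id_eq_factorial]
  have h2 := Real.pow_div_factorial_le_exp (N : ℝ) (Nat.cast_nonneg N) N
  have h3 := Real.log_le_log (div_pos (pow_pos (Nat.cast_pos.2 hN) N)
    (Nat.cast_pos.2 N.factorial_pos)) h2
  rw [Real.log_div (pow_ne_zero _ (Nat.cast_ne_zero.2 (by omega)))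
    (Nat.cast_ne_zero.2 N.factorial_ne_zero), Real.log_exp, Real.log_pow] at h3
  exact h3

/-- `S(N) log N` against `τ N L(N)`. -/
theorem exists_abs_count_sub_le (hf : UnitMult f) (hp : PrimeMean f τ) {ε : ℝ} (hε : 0 < ε) :
    ∃ C : ℝ, ∀ N : ℕ, 1 ≤ N →
      |count f N * Real.log N - τ * (N * logMean f N)| ≤ ε * (N * logMean f N) + C * N := by
  obtain ⟨K, hK⟩ := exists_count_log hf
  obtain ⟨M₀, hM₀⟩ := eventually_atTop.1
    ((Metric.tendsto_nhds.1 hp.theta ε hε).and (eventually_ge_atTop 1))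
  obtain ⟨B, hB⟩ : ∃ B, B = ∑ M ∈ range M₀,
      |∑ p ∈ primesLE M, f p * Real.log p - τ * M| := ⟨_, rfl⟩
  have hθ : ∀ M : ℕ, |∑ p ∈ primesLE M, f p * Real.log p - τ * M| ≤ ε * M + B := by
    intro M
    rcases lt_or_ge M M₀ with h | h
    · refine le_add_of_nonneg_of_le (by positivity) (hB ▸ single_le_sum
        (f := fun M : ℕ => |∑ p ∈ primesLE M, f p * Real.log p - τ * M|)
        (fun _ _ => abs_nonneg _) (mem_range.2 h))
    · obtain ⟨h1, h2⟩ := hM₀ M h
      have hM : (0 : ℝ) < M := Nat.cast_pos.2 h2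
      rw [Real.dist_eq, div_sub' hM.ne', abs_div, abs_of_pos hM, div_lt_iff₀ hM,
        mul_comm (M : ℝ) τ] at h1
      exact h1.le.trans (le_add_of_nonneg_right (hB ▸ sum_nonneg fun _ _ => abs_nonneg _))
  have hB0 : 0 ≤ B := hB ▸ sum_nonneg fun _ _ => abs_nonneg _
  refine ⟨1 + K + (ε + τ + B), fun N hN => ?_⟩
  have hterm : ∀ m ∈ Icc 1 N, |f m * ∑ p ∈ primesLE (N / m), f p * Real.log p -
      τ * (N * (f m / m))| ≤ ε * (N * (f m / m)) + (τ + B) := by
    intro m hm
    rw [mem_Icc] at hm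
    have hlo : ((N / m : ℕ) : ℝ) ≤ N / m := Nat.cast_div_le
    have hhi : (N : ℝ) / m ≤ ((N / m : ℕ) : ℝ) + 1 := by
      rw [← Nat.floor_div_eq_div (K := ℝ)]
      exact (Nat.lt_floor_add_one _).le
    obtain ⟨h1, h2⟩ := abs_le.1 (hθ (N / m))
    have h3 : |∑ p ∈ primesLE (N / m), f p * Real.log p - τ * (N / m : ℝ)| ≤
        ε * (N / m) + (τ + B) := by
      have a1 := mul_le_mul_of_nonneg_left hlo hε.le
      have a2 := mul_le_mul_of_nonneg_left hlo hp.pos.le
      have a3 := mul_le_mul_of_nonneg_left hhi hp.pos.le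
      rw [abs_le]
      constructor <;> linarith [hp.pos]
    rw [show f m * ∑ p ∈ primesLE (N / m), f p * Real.log p - τ * (N * (f m / m)) =
      f m * (∑ p ∈ primesLE (N / m), f p * Real.log p - τ * (N / m : ℝ)) by ring, abs_mul,
      abs_of_nonneg (hf.nonneg m)]
    refine (mul_le_mul_of_nonneg_left h3 (hf.nonneg m)).trans ?_
    rw [mul_add, show f m * (ε * ((N : ℝ) / m)) = ε * (N * (f m / m)) by ring]
    exact add_le_add le_rfl (mul_le_of_le_one_left (by linarith [hp.pos]) (hf.le_one m))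
  have h := (abs_sum_le_sum_abs _ _).trans (sum_le_sum hterm)
  rw [sum_sub_distrib, ← mul_sum, ← mul_sum, sum_add_distrib, ← mul_sum, ← mul_sum, ← logMean,
    sum_const, Nat.card_Icc, Nat.add_sub_cancel, nsmul_eq_mul] at h
  obtain ⟨h4, h5⟩ := abs_le.1 h
  obtain ⟨h6, h7⟩ := abs_le.1 (hK N)
  obtain ⟨h8, h9⟩ := hf.count_log_bounds hN
  have hεN : 0 ≤ ε * (N : ℝ) := by positivity
  rw [abs_le]
  constructor <;> linarith

/-- `L log N - T`. -/
def primMean (f : ℕ → ℝ) (N : ℕ) : ℝ :=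
  logMean f N * Real.log N - ∑ n ∈ Icc 1 N, f n * Real.log n / n

theorem primMean_succ_sub (f : ℕ → ℝ) (N : ℕ) :
    primMean f (N + 1) - primMean f N = logMean f N * (Real.log (N + 1 : ℕ) - Real.log N) := by
  rw [primMean, primMean, logMean, logMean, sum_Icc_succ_top (by omega),
    sum_Icc_succ_top (by omega)]
  ring

theorem exists_abs_primMean_sub_le (hf : UnitMult f) (hp : PrimeMean f τ) :
    ∃ C : ℝ, 0 ≤ C ∧ ∀ N : ℕ, 1 ≤ N →
      |(1 + τ) * primMean f N - logMean f N * Real.log N| ≤ C * logMean f N := by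
  obtain ⟨C, hC⟩ := hp.mertens
  obtain ⟨K, hK⟩ := exists_logMean_log hf
  have hC0 := (abs_nonneg _).trans (hC 1 le_rfl)
  have hK0 : 0 ≤ K :=
    nonneg_of_mul_nonneg_left ((abs_nonneg _).trans (hK 1))
      (lt_of_lt_of_le one_pos (hf.one_le_logMean le_rfl))
  have hl2 : 0 < Real.log 2 := Real.log_pos one_lt_two
  refine ⟨K + (C + τ * Real.log 2), by have := hp.pos; positivity, fun N hN => ?_⟩
  have hterm : ∀ m ∈ Icc 1 N, |f m / m * ∑ p ∈ primesLE (N / m), f p * (Real.log p / p) -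
      τ * (f m / m * Real.log N - f m * Real.log m / m)| ≤ f m / m * (C + τ * Real.log 2) := by
    intro m hm
    rw [mem_Icc] at hm
    have hq : 1 ≤ N / m := Nat.div_pos hm.2 hm.1
    have h1 := abs_le.1 (hC (N / m) hq)
    have hm0 : (0 : ℝ) < m := Nat.cast_pos.2 hm.1
    have hN0 : (0 : ℝ) < N := Nat.cast_pos.2 hN
    have hlo : ((N / m : ℕ) : ℝ) ≤ N / m := Nat.cast_div_le
    have hhi : (N : ℝ) / m ≤ 2 * ((N / m : ℕ) : ℝ) := by
      have : (N : ℝ) / m ≤ ((N / m : ℕ) : ℝ) + 1 := by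
        rw [← Nat.floor_div_eq_div (K := ℝ)]
        exact (Nat.lt_floor_add_one _).le
      linarith [Nat.one_le_cast (α := ℝ) |>.2 hq]
    have h3 := Real.log_le_log (Nat.cast_pos.2 hq) hlo
    have h4 := Real.log_le_log (div_pos hN0 hm0) hhi
    rw [Real.log_mul two_ne_zero (Nat.cast_pos.2 hq : (0 : ℝ) < _).ne',
      Real.log_div hN0.ne' hm0.ne'] at h4
    rw [Real.log_div hN0.ne' hm0.ne'] at h3
    have a1 := mul_le_mul_of_nonneg_left h3 hp.pos.le
    have a2 := mul_le_mul_of_nonneg_left h4 hp.pos.le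
    rw [show f m / m * ∑ p ∈ primesLE (N / m), f p * (Real.log p / p) -
        τ * (f m / m * Real.log N - f m * Real.log m / m) = f m / m *
          (∑ p ∈ primesLE (N / m), f p * (Real.log p / p) - τ * (Real.log N - Real.log m)) by ring,
      abs_mul, abs_of_nonneg (div_nonneg (hf.nonneg m) hm0.le)]
    refine mul_le_mul_of_nonneg_left ?_ (div_nonneg (hf.nonneg m) hm0.le)
    rw [abs_le]
    constructor <;> linarith [mul_pos hp.pos hl2]
  have h := (abs_sum_le_sum_abs _ _).trans (sum_le_sum hterm)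
  rw [sum_sub_distrib, ← mul_sum, sum_sub_distrib, ← sum_mul, ← sum_mul, ← logMean] at h
  obtain ⟨h4, h5⟩ := abs_le.1 h
  obtain ⟨h6, h7⟩ := abs_le.1 (hK N)
  rw [primMean, abs_le]
  constructor <;> linarith

/-- `log I - (1 + τ) log log N`. -/
def drift (f : ℕ → ℝ) (τ : ℝ) (N : ℕ) : ℝ :=
  Real.log (primMean f N) - (1 + τ) * Real.log (Real.log N)

theorem exists_drift_bound (hf : UnitMult f) (hp : PrimeMean f τ) :
    ∃ (K : ℝ) (N₀ : ℕ), 0 ≤ K ∧ 2 ≤ N₀ ∧ ∀ N : ℕ, N₀ ≤ N →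
      |drift f τ (N + 1) - drift f τ N| ≤
        K * ((Real.log N)⁻¹ - (Real.log (N + 1 : ℕ))⁻¹) ∧
      0 < primMean f N ∧ |logMean f N - (1 + τ) * (primMean f N / Real.log N)| ≤
        K * (primMean f N / Real.log N ^ 2) := by
  obtain ⟨C, hC0, hC⟩ := exists_abs_primMean_sub_le hf hp
  obtain ⟨σ, hσ⟩ : ∃ σ, σ = 1 + τ := ⟨_, rfl⟩
  have hσ1 : 1 < σ := by rw [hσ]; linarith [hp.pos]
  rw [← hσ] at hC
  obtain ⟨N₀, hN₀⟩ := eventually_atTop.1 ((Real.tendsto_log_atTop.comp
    tendsto_natCast_atTop_atTop).eventually_ge_atTop (2 * C + 1))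
  obtain ⟨K, hK⟩ : ∃ K, K = 2 * σ * C + 5 * σ ^ 2 := ⟨_, rfl⟩
  refine ⟨2 * K, max N₀ 2, by rw [hK]; positivity, le_max_right _ _, fun N hN => ?_⟩
  rw [max_le_iff] at hN
  have hlog : 2 * C + 1 ≤ Real.log N := hN₀ N hN.1
  have hN2 : (2 : ℝ) ≤ N := Nat.ofNat_le_cast.2 hN.2
  obtain ⟨l, hl⟩ : ∃ l, l = Real.log N := ⟨_, rfl⟩
  obtain ⟨δ, hδ⟩ : ∃ δ, δ = Real.log (N + 1 : ℕ) - l := ⟨_, rfl⟩
  obtain ⟨L, hL⟩ : ∃ L, L = logMean f N := ⟨_, rfl⟩
  obtain ⟨I, hI⟩ : ∃ I, I = primMean f N := ⟨_, rfl⟩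
  have hl0 : 0 < l := by rw [hl]; linarith
  have hl1 : 1 ≤ l := by rw [hl]; linarith
  have hL1 : 1 ≤ L := hL ▸ hf.one_le_logMean (show 1 ≤ N by omega)
  have hI1 := abs_le.1 (hC N (by omega))
  rw [← hl, ← hL, ← hI] at hI1
  rw [← hl, ← hL, ← hI]
  rw [← hl] at hlog
  have hIL : L * l ≤ 2 * σ * I := by
    have := mul_le_mul_of_nonneg_left hlog (show 0 ≤ L by linarith)
    linarith
  have hI0 : 0 < I := by
    by_contra h
    have := mul_nonpos_of_nonneg_of_nonpos (show 0 ≤ 2 * σ by linarith) (not_lt.1 h)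
    linarith [mul_pos (show 0 < L by linarith) hl0]
  have hLI : |L - σ * (I / l)| ≤ 2 * σ * C * (I / l ^ 2) := by
    have e : L - σ * (I / l) = -(σ * I - L * l) / l := by field_simp; ring
    rw [e, abs_div, abs_neg, abs_of_pos hl0, div_le_iff₀ hl0]
    refine (abs_le.2 hI1).trans ?_
    rw [show 2 * σ * C * (I / l ^ 2) * l = 2 * σ * I * C / l by field_simp, le_div_iff₀ hl0]
    have := mul_le_mul_of_nonneg_left hIL hC0
    linarith
  refine ⟨?_, hI0, ?_⟩
  swap
  · rw [← hσ]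
    refine hLI.trans (mul_le_mul_of_nonneg_right ?_ (by positivity))
    rw [hK]
    have : 0 ≤ σ * C := mul_nonneg (by linarith) hC0
    linarith [sq_nonneg σ]
  have hδ0 : 0 ≤ δ := by
    rw [hδ, hl, sub_nonneg]
    exact Real.log_le_log (by linarith) (by push_cast; linarith)
  have hδ1 : δ ≤ 1 := by
    have h := Real.log_le_sub_one_of_pos (show (0 : ℝ) < ((N + 1 : ℕ) : ℝ) / N by positivity)
    rw [Real.log_div (by positivity) (by positivity), ← hl, ← hδ] at h
    refine h.trans ?_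
    rw [sub_le_iff_le_add, div_le_iff₀ (by positivity)]
    push_cast
    linarith
  have hlb : ∀ x : ℝ, 0 ≤ x → |Real.log (1 + x) - x| ≤ x ^ 2 := fun x hx => by
    have h1 := Real.one_sub_inv_le_log_of_pos (show 0 < 1 + x by linarith)
    have h2 := Real.log_le_sub_one_of_pos (show 0 < 1 + x by linarith)
    have h3 : x - x ^ 2 ≤ 1 - (1 + x)⁻¹ := by
      rw [show 1 - (1 + x)⁻¹ = x / (1 + x) by field_simp; ring, le_div_iff₀ (by linarith)]
      linarith [pow_nonneg hx 3]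
    rw [abs_le]
    constructor <;> linarith [sq_nonneg x]
  obtain ⟨x, hx⟩ : ∃ x, x = L * δ / I := ⟨_, rfl⟩
  obtain ⟨y, hy⟩ : ∃ y, y = δ / l := ⟨_, rfl⟩
  have hx0 : 0 ≤ x := hx ▸ div_nonneg (mul_nonneg (by linarith) hδ0) hI0.le
  have hy0 : 0 ≤ y := hy ▸ div_nonneg hδ0 hl0.le
  have hstep : primMean f (N + 1) = I + L * δ := by
    linarith [hδ ▸ hl ▸ hI ▸ hL ▸ primMean_succ_sub f N]
  have e1 : drift f τ (N + 1) - drift f τ N =
      (Real.log (1 + x) - x) - σ * (Real.log (1 + y) - y) + (x - σ * y) := by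
    rw [drift, drift, hstep, ← hI, show I + L * δ = I * (1 + x) by rw [hx]; field_simp,
      Real.log_mul hI0.ne' (by linarith), show Real.log (N + 1 : ℕ) = l * (1 + y) by
        rw [hy, mul_add, mul_one, mul_div_cancel₀ _ hl0.ne', hδ]; ring,
      Real.log_mul hl0.ne' (by linarith), ← hl, ← hσ]
    ring
  have hxy : |x - σ * y| ≤ 2 * σ * C * (δ / l ^ 2) := by
    have e : x - σ * y = δ / I * (L - σ * (I / l)) := by rw [hx, hy]; field_simp
    rw [e, abs_mul, abs_of_nonneg (div_nonneg hδ0 hI0.le)]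
    refine (mul_le_mul_of_nonneg_left hLI (div_nonneg hδ0 hI0.le)).trans (le_of_eq ?_)
    field_simp
  have hxb : x ≤ 2 * σ * y := by
    rw [hx, hy, mul_div_assoc', div_le_div_iff₀ hI0 hl0]
    have := mul_le_mul_of_nonneg_left hIL hδ0
    linarith
  have hysq : y ^ 2 ≤ δ / l ^ 2 := by
    rw [hy, div_pow]
    refine div_le_div_of_nonneg_right ?_ (by positivity)
    rw [sq]
    exact mul_le_of_le_one_left hδ0 hδ1
  have hxsq : x ^ 2 ≤ 4 * σ ^ 2 * (δ / l ^ 2) := by
    refine (pow_le_pow_left₀ hx0 hxb 2).trans ?_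
    rw [mul_pow, show (2 * σ) ^ 2 = 4 * σ ^ 2 by ring]
    exact mul_le_mul_of_nonneg_left hysq (by positivity)
  have hdiff : δ / l ^ 2 ≤ 2 * (l⁻¹ - (Real.log (N + 1 : ℕ))⁻¹) := by
    rw [show Real.log (N + 1 : ℕ) = l + δ by linarith, inv_sub_inv hl0.ne' (by linarith),
      add_sub_cancel_left, mul_div_assoc', div_le_div_iff₀ (by positivity) (by positivity)]
    have := mul_le_mul_of_nonneg_left (show δ ≤ l by linarith) (mul_nonneg hδ0 hl0.le)
    linarith
  rw [e1]
  refine (abs_add_le _ _).trans ((add_le_add ((abs_sub _ _).trans (add_le_add (hlb x hx0)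
    (show |σ * (Real.log (1 + y) - y)| ≤ σ * y ^ 2 by
      rw [abs_mul, abs_of_pos (by linarith)]
      exact mul_le_mul_of_nonneg_left (hlb y hy0) (by linarith)))) hxy).trans ?_)
  have h1 := mul_le_mul_of_nonneg_left hdiff (show 0 ≤ K by rw [hK]; positivity)
  have h2 : σ * y ^ 2 ≤ σ ^ 2 * (δ / l ^ 2) :=
    mul_le_mul (le_self_pow₀ hσ1.le two_ne_zero) hysq (sq_nonneg y) (sq_nonneg σ)
  rw [hK] at h1 ⊢
  linarith

/-- **The logarithmic mean.** -/
theorem exists_logMean_asymptotic (hf : UnitMult f) (hp : PrimeMean f τ) :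
    ∃ c : ℝ, 0 < c ∧
      Tendsto (fun N : ℕ => logMean f N / Real.log N ^ τ) atTop (𝓝 c) := by
  obtain ⟨K, N₀, hK, hN₀, h⟩ := exists_drift_bound hf hp
  obtain ⟨r, hr⟩ : ∃ r : ℕ → ℝ, r = fun n => K * (Real.log (n + N₀ : ℕ))⁻¹ := ⟨_, rfl⟩
  have hstep : ∀ n, dist (drift f τ (n + N₀)) (drift f τ (n.succ + N₀)) ≤ r n - r (n + 1) := by
    intro n
    rw [Real.dist_eq, abs_sub_comm, show n.succ + N₀ = n + N₀ + 1 by omega]
    refine (h (n + N₀) (by omega)).1.trans (le_of_eq ?_)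
    rw [hr]
    simp only
    rw [mul_sub, show n + 1 + N₀ = n + N₀ + 1 by omega]
  have hsum : Summable fun n => r n - r (n + 1) := by
    refine summable_of_sum_range_le (c := r 0) (fun n => dist_nonneg.trans (hstep n)) fun n => ?_
    rw [sum_range_sub']
    exact sub_le_self _ (hr ▸ mul_nonneg hK (inv_nonneg.2 (Real.log_natCast_nonneg _)))
  obtain ⟨J, hJ⟩ := cauchySeq_tendsto_of_complete
    (cauchySeq_of_dist_le_of_summable _ hstep hsum)
  have hd : Tendsto (drift f τ) atTop (𝓝 J) := (tendsto_add_atTop_iff_nat N₀).1 hJ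
  have hlogT : Tendsto (fun N : ℕ => Real.log N) atTop atTop :=
    Real.tendsto_log_atTop.comp tendsto_natCast_atTop_atTop
  refine ⟨(1 + τ) * Real.exp J, mul_pos (by linarith [hp.pos]) (Real.exp_pos J), ?_⟩
  have hmain : Tendsto (fun N : ℕ => primMean f N / (Real.log N * Real.log N ^ τ)) atTop
      (𝓝 (Real.exp J)) := by
    refine ((Real.continuous_exp.tendsto J).comp hd).congr' ?_
    filter_upwards [eventually_ge_atTop N₀, hlogT.eventually_gt_atTop 0] with N hN hl
    rw [Function.comp_apply, drift, Real.exp_sub, Real.exp_log (h N hN).2.1,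
      mul_comm (1 + τ), ← Real.rpow_def_of_pos hl, Real.rpow_add hl, Real.rpow_one]
  have hzero : Tendsto (fun N : ℕ => logMean f N / Real.log N ^ τ -
      (1 + τ) * (primMean f N / (Real.log N * Real.log N ^ τ))) atTop (𝓝 0) := by
    refine squeeze_zero_norm' ?_ (show Tendsto (fun N : ℕ => K *
      (primMean f N / (Real.log N * Real.log N ^ τ) * (Real.log N)⁻¹)) atTop (𝓝 0) by
        simpa using (hmain.mul hlogT.inv_tendsto_atTop).const_mul K)
    filter_upwards [eventually_ge_atTop N₀, hlogT.eventually_gt_atTop 0] with N hN hl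
    have hs := Real.rpow_pos_of_pos hl τ
    rw [Real.norm_eq_abs, show logMean f N / Real.log N ^ τ -
      (1 + τ) * (primMean f N / (Real.log N * Real.log N ^ τ)) =
        (logMean f N - (1 + τ) * (primMean f N / Real.log N)) / Real.log N ^ τ by field_simp,
      abs_div, abs_of_pos hs, div_le_iff₀ hs]
    refine (h N hN).2.2.trans (le_of_eq ?_)
    field_simp
  have h2 := hzero.add (hmain.const_mul (1 + τ))
  rw [zero_add] at h2
  exact h2.congr fun N => sub_add_cancel _ _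

/-- **Landau, Wirsing**: the asymptotics. -/
theorem exists_count_asymptotic (hf : UnitMult f) (hp : PrimeMean f τ) :
    ∃ C : ℝ, 0 < C ∧
      Tendsto (fun N : ℕ => count f N * Real.log N ^ (1 - τ) / N) atTop (𝓝 C) ∧
      Tendsto (fun N : ℕ => logMean f N / Real.log N ^ τ) atTop (𝓝 (C / τ)) := by
  obtain ⟨c, hc, hlim⟩ := exists_logMean_asymptotic hf hp
  refine ⟨τ * c, mul_pos hp.pos hc, ?_, by rwa [mul_div_cancel_left₀ c hp.pos.ne']⟩
  have hlogT : Tendsto (fun N : ℕ => Real.log N) atTop atTop :=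
    Real.tendsto_log_atTop.comp tendsto_natCast_atTop_atTop
  have hzero : Tendsto (fun N : ℕ => count f N * Real.log N ^ (1 - τ) / N -
      τ * (logMean f N / Real.log N ^ τ)) atTop (𝓝 0) := by
    refine Metric.tendsto_nhds.2 fun η hη => ?_
    obtain ⟨C, hC⟩ := exists_abs_count_sub_le hf hp (show 0 < η / (2 * (c + 1)) by positivity)
    filter_upwards [eventually_ge_atTop 1, hlogT.eventually_gt_atTop 0,
      hlim.eventually (eventually_lt_nhds (lt_add_one c)),
      (((tendsto_rpow_atTop hp.pos).comp hlogT).const_div_atTop C).eventually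
        (eventually_lt_nhds (half_pos hη))] with N hN hl hL hC'
    have hs := Real.rpow_pos_of_pos hl τ
    have hN0 : (0 : ℝ) < N := Nat.cast_pos.2 hN
    rw [Real.dist_eq, sub_zero, Real.rpow_sub hl, Real.rpow_one,
      show count f N * (Real.log N / Real.log N ^ τ) / N - τ * (logMean f N / Real.log N ^ τ) =
        (count f N * Real.log N - τ * (N * logMean f N)) / (N * Real.log N ^ τ) by field_simp,
      abs_div, abs_of_pos (mul_pos hN0 hs)]
    refine lt_of_le_of_lt (div_le_div_of_nonneg_right (hC N hN) (by positivity)) ?_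
    rw [add_div, show η / (2 * (c + 1)) * (N * logMean f N) / (N * Real.log N ^ τ) =
        η / (2 * (c + 1)) * (logMean f N / Real.log N ^ τ) by field_simp,
      show C * N / (N * Real.log N ^ τ) = C / Real.log N ^ τ by field_simp]
    have h1 : η / (2 * (c + 1)) * (logMean f N / Real.log N ^ τ) ≤ η / 2 := by
      refine (mul_le_mul_of_nonneg_left hL.le (by positivity)).trans (le_of_eq ?_)
      field_simp
    simp only [Function.comp_apply] at hC'
    linarith
  have h2 := hzero.add (hlim.const_mul τ)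
  rw [zero_add] at h2
  exact h2.congr fun N => sub_add_cancel _ _

variable {q : ℕ} [NeZero q]

/-- The hypothesis for classes modulo `q`, up to finitely many primes. -/
theorem primeMean_of_classes {A : Finset (ZMod q)} (hA : ∀ a ∈ A, IsUnit a) (hne : A.Nonempty)
    (hf : UnitMult f) (P₀ : ℕ)
    (h : ∀ p : ℕ, p.Prime → P₀ ≤ p → f p = if (p : ZMod q) ∈ A then 1 else 0) :
    PrimeMean f ((A.card : ℝ) / q.totient) := by
  have hτ : (0 : ℝ) < (A.card : ℝ) / q.totient :=
    div_pos (Nat.cast_pos.2 hne.card_pos) (Nat.cast_pos.2 (Nat.totient_pos.2 (NeZero.pos q)))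
  -- a finite change
  obtain ⟨B, hB⟩ : ∃ B : ℝ, B = ∑ p ∈ primesLE P₀, Real.log p := ⟨_, rfl⟩
  have hdiff : ∀ (w : ℕ → ℝ), (∀ p : ℕ, p.Prime → 0 ≤ w p ∧ w p ≤ Real.log p) → ∀ N,
      |∑ p ∈ primesLE N, f p * w p -
        ∑ p ∈ primesLE N, (if (p : ZMod q) ∈ A then w p else 0)| ≤ B := by
    intro w hw N
    rw [← sum_sub_distrib, hB]
    refine (abs_sum_le_sum_abs _ _).trans ?_
    refine le_trans (le_of_eq (sum_subset (filter_subset (· < P₀) _) fun p hp hp' => ?_).symm)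
      ((sum_le_sum (g := fun p : ℕ => Real.log p) fun p hp => ?_).trans
        (sum_le_sum_of_subset_of_nonneg (fun p hp => ?_) fun p _ _ => Real.log_natCast_nonneg p))
    · rw [mem_filter, not_and, not_lt] at hp'
      rw [h p (mem_primesLE.1 hp).1 (hp' hp)]
      split_ifs <;> simp
    · obtain ⟨h1, h2⟩ := hw p (mem_primesLE.1 (mem_filter.1 hp).1).1
      have h3 : f p * w p ≤ w p := mul_le_of_le_one_left h1 (hf.le_one p)
      rw [abs_le]
      split_ifs <;> constructor <;> linarith [mul_nonneg (hf.nonneg p) h1]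
    · rw [mem_filter, mem_primesLE] at hp
      exact mem_primesLE.2 ⟨hp.1.1, hp.2.le⟩
  refine ⟨hτ, ?_, ?_⟩
  · refine ((tendsto_classTheta_div hA).congr_dist (squeeze_zero'
      (Eventually.of_forall fun N => dist_nonneg) ?_
      (tendsto_const_div_atTop_nhds_zero_nat B)))
    filter_upwards with N
    rw [Real.dist_eq, classTheta, ← sub_div, abs_div, Nat.abs_cast, abs_sub_comm]
    exact div_le_div_of_nonneg_right (hdiff (fun p => Real.log p)
      (fun p _ => ⟨Real.log_natCast_nonneg p, le_rfl⟩) N) (Nat.cast_nonneg N)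
  · obtain ⟨C, hC⟩ := exists_mertens hA
    refine ⟨B + C, fun N hN => ?_⟩
    have h1 := hdiff (fun p : ℕ => Real.log p / p) (fun p hp => ⟨div_nonneg
      (Real.log_natCast_nonneg p) (Nat.cast_nonneg p),
      div_le_self (Real.log_natCast_nonneg p) (Nat.one_le_cast.2 hp.one_le)⟩) N
    exact (abs_sub_le _ _ _).trans (add_le_add h1 (hC N hN))

theorem exists_asymptotic_of_classes {A : Finset (ZMod q)} (hA : ∀ a ∈ A, IsUnit a)
    (hne : A.Nonempty) (hf : UnitMult f) (P₀ : ℕ)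
    (h : ∀ p : ℕ, p.Prime → P₀ ≤ p → f p = if (p : ZMod q) ∈ A then 1 else 0) :
    ∃ C : ℝ, 0 < C ∧
      Tendsto (fun N : ℕ => count f N * Real.log N ^ (1 - (A.card : ℝ) / q.totient) / N) atTop
        (𝓝 C) ∧
      Tendsto (fun N : ℕ => logMean f N / Real.log N ^ ((A.card : ℝ) / q.totient)) atTop
        (𝓝 (C / ((A.card : ℝ) / q.totient))) :=
  exists_count_asymptotic hf (primeMean_of_classes hA hne hf P₀ h)

end FA.LandauWirsing
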