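import Fermat.Agent.Root.SummarySiegelWalfisz
import Mathlib.NumberTheory.Harmonic.Bounds
import Mathlib.Analysis.SpecialFunctions.Log.Monotone

/-!
# Primes in classes with a fixed modulus

The prime number theorem and Mertens' first theorem for a set of classes, from the theorem of
Siegel and Walfisz at a fixed modulus.
-/

set_option autoImplicit false

noncomputable section

namespace FA.LandauWirsing

open Finset Filter
open scoped Topology

/-- The primes up to `N`. -/
def primesLE (N : ℕ) : Finset ℕ := (Icc 1 N).filter Nat.Prime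

theorem mem_primesLE {p N : ℕ} : p ∈ primesLE N ↔ p.Prime ∧ p ≤ N := by
  simp only [primesLE, mem_filter, mem_Icc]
  exact ⟨fun h => ⟨h.2, h.1.2⟩, fun h => ⟨⟨h.1.one_le, h.2⟩, h.1⟩⟩

variable {q : ℕ} [NeZero q]

/-- `∑ log p` over the primes `p ≤ N` of the classes in `A`. -/
def classTheta (A : Finset (ZMod q)) (N : ℕ) : ℝ :=
  ∑ p ∈ primesLE N, if (p : ZMod q) ∈ A then Real.log p else 0

theorem classTheta_nonneg (A : Finset (ZMod q)) (N : ℕ) : 0 ≤ classTheta A N :=
  sum_nonneg fun p _ => by split_ifs <;> [exact Real.log_natCast_nonneg p; exact le_rfl]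

theorem exists_classTheta_error {A : Finset (ZMod q)} (hA : ∀ a ∈ A, IsUnit a) :
    ∃ C : ℝ, ∀ N : ℕ, 2 ≤ N →
      |classTheta A N - (A.card : ℝ) / q.totient * N| ≤ C * (N / Real.log N ^ 2) := by
  classical
  obtain ⟨c, C, hc, hC, hSW⟩ := FA.SiegelWalfisz.Summary.siegel_walfisz_theta 1 one_pos
  obtain ⟨K, hK, hk⟩ := FA.SiegelWalfisz.exp_gauge_le 2 two_pos hc
  obtain ⟨τ, hτ⟩ : ∃ τ : ℝ, τ = (A.card : ℝ) / q.totient := ⟨_, rfl⟩
  rw [← hτ]
  have key : ∀ N : ℕ, 2 ≤ N → (q : ℝ) ≤ Real.log N →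
      |classTheta A N - τ * N| ≤ (A.card : ℝ) * (C * K) * (N / Real.log N ^ 2) := by
    intro N hN hq
    have hx : (2 : ℝ) ≤ N := Nat.ofNat_le_cast.2 hN
    have e : classTheta A N - τ * N = ∑ a ∈ A, ((∑ p ∈ (Icc 1 ⌊(N : ℝ)⌋₊).filter
        (fun p : ℕ => p.Prime ∧ (p : ZMod q) = a), Real.log p) - (N : ℝ) / q.totient) := by
      rw [sum_sub_distrib, sum_const, nsmul_eq_mul, Nat.floor_natCast, hτ, div_mul_eq_mul_div,
        mul_div_assoc]
      congr 1
      rw [classTheta, primesLE, sum_filter]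
      simp only [sum_filter]
      rw [sum_comm]
      refine sum_congr rfl fun p _ => ?_
      by_cases hp : p.Prime <;> simp [hp, eq_comm]
    rw [e]
    refine (abs_sum_le_sum_abs _ _).trans ((sum_le_card_nsmul _ _ (C * K * (N / Real.log N ^ 2))
      fun a ha => ?_).trans (le_of_eq ?_))
    · refine (hSW q a (hA a ha) N hx (by rwa [Real.rpow_one])).trans ?_
      have h := mul_le_mul_of_nonneg_left (hk N hx) (show 0 ≤ C * (N : ℝ) by positivity)
      rw [FA.SiegelWalfisz.gauge] at h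
      refine h.trans (le_of_eq ?_)
      rw [show (2 : ℝ) = ((2 : ℕ) : ℝ) by norm_num, Real.rpow_natCast]
      ring
    · rw [nsmul_eq_mul]
      ring
  obtain ⟨N₀, hN₀⟩ := eventually_atTop.1
    ((Real.tendsto_log_atTop.comp tendsto_natCast_atTop_atTop).eventually_ge_atTop (q : ℝ))
  obtain ⟨B, hB⟩ : ∃ B, B = ∑ N ∈ range N₀,
      |classTheta A N - τ * N| * Real.log N ^ 2 := ⟨_, rfl⟩
  refine ⟨(A.card : ℝ) * (C * K) + B, fun N hN => ?_⟩
  have hB0 : 0 ≤ B := hB ▸ sum_nonneg fun N _ => mul_nonneg (abs_nonneg _) (sq_nonneg _)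
  have hN0 : (2 : ℝ) ≤ N := Nat.ofNat_le_cast.2 hN
  have hl : 0 < Real.log N := Real.log_pos (by linarith)
  rcases le_or_gt N₀ N with h | h
  · exact (key N hN (hN₀ N h)).trans (mul_le_mul_of_nonneg_right (by linarith) (by positivity))
  · rw [← mul_div_assoc, le_div_iff₀ (by positivity)]
    have h1 : |classTheta A N - τ * N| * Real.log N ^ 2 ≤ B :=
      hB ▸ single_le_sum (f := fun N : ℕ => |classTheta A N - τ * N| * Real.log N ^ 2)
        (fun N _ => mul_nonneg (abs_nonneg _) (sq_nonneg _)) (mem_range.2 h)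
    have h2 : B ≤ B * N := le_mul_of_one_le_right hB0 (by linarith)
    have h3 : 0 ≤ (A.card : ℝ) * (C * K) * N := by positivity
    linarith

theorem tendsto_classTheta_div {A : Finset (ZMod q)} (hA : ∀ a ∈ A, IsUnit a) :
    Tendsto (fun N : ℕ => classTheta A N / N) atTop (𝓝 ((A.card : ℝ) / q.totient)) := by
  obtain ⟨C, hC⟩ := exists_classTheta_error hA
  have hl : Tendsto (fun N : ℕ => Real.log N) atTop atTop :=
    Real.tendsto_log_atTop.comp tendsto_natCast_atTop_atTop
  refine tendsto_iff_dist_tendsto_zero.2 (squeeze_zero' (Eventually.of_forall fun N => dist_nonneg)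
    ?_ (by simpa using (((tendsto_pow_atTop two_ne_zero).comp hl).inv_tendsto_atTop).const_mul C))
  filter_upwards [eventually_ge_atTop 2] with N hN
  have hN0 : (0 : ℝ) < N := Nat.cast_pos.2 (by omega)
  rw [Real.dist_eq, div_sub' hN0.ne', abs_div, abs_of_pos hN0, div_le_iff₀ hN0,
    mul_comm (N : ℝ) _]
  refine (hC N hN).trans (le_of_eq ?_)
  ring

theorem sum_log_div_eq (A : Finset (ZMod q)) : ∀ N : ℕ,
    ∑ p ∈ primesLE N, (if (p : ZMod q) ∈ A then Real.log p / p else 0) =
      classTheta A N / N + ∑ n ∈ Ico 1 N, classTheta A n / ((n : ℝ) * (n + 1)) := by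
  intro N
  induction N with
  | zero => simp [primesLE, classTheta]
  | succ N ih =>
    have e : ∀ F : ℕ → ℝ, ∑ p ∈ primesLE (N + 1), F p =
        (∑ p ∈ primesLE N, F p) + if (N + 1).Prime then F (N + 1) else 0 := fun F => by
      rw [primesLE, primesLE, sum_filter, sum_filter, sum_Icc_succ_top (by omega)]
    rw [e, ih, show classTheta A (N + 1) = _ from e _, ← classTheta]
    rcases N.eq_zero_or_pos with rfl | hN
    · simp [classTheta, primesLE, Nat.not_prime_one]
    rw [sum_Ico_succ_top hN]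
    have hN0 : (0 : ℝ) < N := Nat.cast_pos.2 hN
    push_cast
    split_ifs <;> field_simp <;> ring

theorem exists_mertens {A : Finset (ZMod q)} (hA : ∀ a ∈ A, IsUnit a) :
    ∃ C : ℝ, ∀ N : ℕ, 1 ≤ N →
      |∑ p ∈ primesLE N, (if (p : ZMod q) ∈ A then Real.log p / p else 0) -
        (A.card : ℝ) / q.totient * Real.log N| ≤ C := by
  obtain ⟨C, hC⟩ := exists_classTheta_error hA
  obtain ⟨τ, hτ⟩ : ∃ τ : ℝ, τ = (A.card : ℝ) / q.totient := ⟨_, rfl⟩
  rw [← hτ] at hC ⊢
  have hτ0 : 0 ≤ τ := hτ ▸ div_nonneg (Nat.cast_nonneg _) (Nat.cast_nonneg _)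
  have hl2 : 0 < Real.log 2 := Real.log_pos one_lt_two
  have hC0 : 0 ≤ C := by
    have h := (abs_nonneg _).trans (hC 2 le_rfl)
    exact nonneg_of_mul_nonneg_left h (by push_cast; positivity)
  -- the error series
  have hterm : ∀ n : ℕ, 2 ≤ n → C / (((n : ℝ) + 1) * Real.log n ^ 2) ≤
      2 * C * ((Real.log n)⁻¹ - (Real.log (n + 1 : ℕ))⁻¹) := by
    intro n hn
    have hn0 : (0 : ℝ) < n := Nat.cast_pos.2 (by omega)
    have hn2 : (2 : ℝ) ≤ n := Nat.ofNat_le_cast.2 hn
    obtain ⟨l, hl⟩ : ∃ l, l = Real.log n := ⟨_, rfl⟩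
    obtain ⟨l', hl'⟩ : ∃ l', l' = Real.log (n + 1 : ℕ) := ⟨_, rfl⟩
    have hl0 : 0 < l := hl ▸ Real.log_pos (by linarith)
    have h1 : 1 / ((n : ℝ) + 1) ≤ l' - l := by
      have h := Real.one_sub_inv_le_log_of_pos (show (0 : ℝ) < ((n : ℝ) + 1) / n by positivity)
      rw [Real.log_div (by positivity) hn0.ne', inv_div, ← hl,
        show ((n : ℝ) + 1) = ((n + 1 : ℕ) : ℝ)
        by push_cast; ring, ← hl'] at h
      push_cast at h
      refine le_trans (le_of_eq ?_) h
      field_simp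
      ring
    have h2 : l' ≤ 2 * l := by
      rw [hl', hl, show (2 : ℝ) = ((2 : ℕ) : ℝ) by norm_num, ← Real.log_pow]
      refine Real.log_le_log (by positivity) ?_
      push_cast
      linarith [mul_le_mul_of_nonneg_left hn2 hn0.le]
    have hl'0 : 0 < l' := by linarith [show 0 ≤ 1 / ((n : ℝ) + 1) by positivity]
    rw [← hl, ← hl', inv_sub_inv hl0.ne' hl'0.ne']
    calc C / (((n : ℝ) + 1) * l ^ 2) = C * (1 / ((n : ℝ) + 1)) / l ^ 2 := by field_simp
      _ ≤ C * (l' - l) / l ^ 2 :=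
          div_le_div_of_nonneg_right (mul_le_mul_of_nonneg_left h1 hC0) (by positivity)
      _ ≤ 2 * C * ((l' - l) / (l * l')) := by
          rw [mul_div_assoc' (2 * C), div_le_div_iff₀ (by positivity) (mul_pos hl0 hl'0)]
          have := mul_le_mul_of_nonneg_left h2 (mul_nonneg (mul_nonneg hC0
            (show 0 ≤ l' - l by linarith [show 0 ≤ 1 / ((n : ℝ) + 1) by positivity])) hl0.le)
          linarith
  have hθ1 : classTheta A 1 = 0 := by
    refine sum_eq_zero fun p hp => ?_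
    have := mem_primesLE.1 hp
    exact absurd this.1.two_le (by omega)
  refine ⟨τ * 3 + C / Real.log 2 ^ 2 + τ + 2 * C / Real.log 2, fun N hN => ?_⟩
  rw [sum_log_div_eq A N]
  rcases Nat.lt_or_ge N 2 with h | hN2
  · obtain rfl : N = 1 := by omega
    simp [hθ1]
    positivity
  have hN0 : (0 : ℝ) < N := Nat.cast_pos.2 (by omega)
  -- the first term
  have h1 : |classTheta A N / N| ≤ τ + C / Real.log 2 ^ 2 := by
    have h := abs_le.1 (hC N hN2)
    have h2 : Real.log 2 ^ 2 ≤ Real.log N ^ 2 :=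
      pow_le_pow_left₀ hl2.le (Real.log_le_log two_pos (Nat.ofNat_le_cast.2 hN2)) 2
    have h3 : C * ((N : ℝ) / Real.log N ^ 2) ≤ C / Real.log 2 ^ 2 * N := by
      rw [div_mul_eq_mul_div, mul_div_assoc']
      exact div_le_div_of_nonneg_left (by positivity) (by positivity) h2
    rw [abs_of_nonneg (div_nonneg (classTheta_nonneg A N) hN0.le), div_le_iff₀ hN0]
    linarith
  -- the harmonic sum
  have hh : |∑ n ∈ Ico 1 N, τ / ((n : ℝ) + 1) - τ * Real.log N| ≤ τ := by
    have e : ∀ M : ℕ, 1 ≤ M → ∑ n ∈ Ico 1 M, τ / ((n : ℝ) + 1) = τ * ((harmonic M : ℝ) - 1) := by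
      intro M hM
      induction M, hM using Nat.le_induction with
      | base => simp [harmonic]
      | succ M hM ih =>
        rw [sum_Ico_succ_top hM, ih, harmonic_succ]
        push_cast
        ring
    rw [e N hN, ← mul_sub, abs_mul, abs_of_nonneg hτ0]
    refine mul_le_of_le_one_right hτ0 (abs_le.2 ⟨?_, ?_⟩)
    · have := log_add_one_le_harmonic N
      have := Real.log_le_log hN0 (show (N : ℝ) ≤ ((N + 1 : ℕ) : ℝ) by push_cast; linarith)
      linarith
    · linarith [harmonic_le_one_add_log N]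
  -- the errors
  have he : |∑ n ∈ Ico 1 N, (classTheta A n / ((n : ℝ) * (n + 1)) - τ / ((n : ℝ) + 1))| ≤
      τ + 2 * C / Real.log 2 := by
    rw [sum_eq_sum_Ico_succ_bot (show 1 < N by omega)]
    refine (abs_add_le _ _).trans (add_le_add ?_ ((abs_sum_le_sum_abs _ _).trans ?_))
    · rw [hθ1, zero_div, zero_sub, abs_neg, abs_of_nonneg (by positivity)]
      exact div_le_self hτ0 (by norm_num)
    refine (sum_le_sum (g := fun n : ℕ => 2 * C * ((Real.log n)⁻¹ - (Real.log (n + 1 : ℕ))⁻¹))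
      fun n hn => ?_).trans ?_
    · have hn2 : 2 ≤ n := (mem_Ico.1 hn).1
      have hn0 : (0 : ℝ) < n := Nat.cast_pos.2 (by omega)
      refine le_trans (le_of_eq_of_le ?_ (div_le_div_of_nonneg_right (hC n hn2)
        (show 0 ≤ (n : ℝ) * (n + 1) by positivity))) (le_of_eq_of_le ?_ (hterm n hn2))
      · rw [show τ / ((n : ℝ) + 1) = τ * n / ((n : ℝ) * (n + 1)) by field_simp, ← sub_div,
          abs_div, abs_of_pos (show (0 : ℝ) < (n : ℝ) * (n + 1) by positivity)]
      · field_simp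
    · rw [← mul_sum]
      have e : ∀ M : ℕ, 2 ≤ M → ∑ n ∈ Ico 2 M, ((Real.log n)⁻¹ - (Real.log (n + 1 : ℕ))⁻¹) =
          (Real.log (2 : ℕ))⁻¹ - (Real.log M)⁻¹ := by
        intro M hM
        induction M, hM using Nat.le_induction with
        | base => simp
        | succ M hM ih =>
          rw [sum_Ico_succ_top hM, ih]
          ring
      rw [e N hN2, mul_sub, div_eq_mul_inv]
      push_cast
      exact sub_le_self _ (mul_nonneg (by positivity) (inv_nonneg.2 (Real.log_natCast_nonneg N)))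
  rw [sum_sub_distrib] at he
  obtain ⟨a1, a2⟩ := abs_le.1 h1
  obtain ⟨b1, b2⟩ := abs_le.1 hh
  obtain ⟨c1, c2⟩ := abs_le.1 he
  rw [abs_le]
  constructor <;> linarith

end FA.LandauWirsing
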